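import Fermat.Agent.PotentialDeRham.GoodModel

/-!
# The line of the kernel of reduction of a good equation

For a potentially ordinary curve the `p`-power torsion in the kernel of reduction of a good
equation is the first axis in a suitable basis. An open subgroup of the Galois group of `ℚ_p` fixes
the change of variables; it preserves this axis and its inertia is trivial on the quotient.
-/

set_option autoImplicit false
set_option linter.unusedSectionVars false
set_option linter.style.haveILetI false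

noncomputable section

open Matrix WeierstrassCurve FA.TateSen FA.Frob FA.EC FA.Local FA.RT.Tate FA.PadicChar
open scoped WeierstrassCurve.Affine Classical

namespace FA.PotDR

variable {p : ℕ} [hp : Fact p.Prime] {W : WeierstrassCurve ℤ} [(ratCurve W).IsElliptic]

local notation "G" => PadicAlgCl p ≃ₐ[ℚ_[p]] PadicAlgCl p
local notation "Qb" => AlgebraicClosure ℚ
local notation "Ω" => PadicAlgCl p

/-- Inertia of `ℚ_p` lands in the inertia group of the place. -/
theorem loc_mem_inertia {τ : G} (hτ : τ ∈ inertiaGal p) :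
    localGaloisToGlobal p τ ∈ (padicPlace p).inertiaSubgroupIn ℚ := by
  refine FA.Local.mem_inertiaSubgroupIn_of_forall hp.out
    (FA.GalCoh.liesOverPrime_padicPlace p) fun b => ?_
  rw [FA.Deform.mem_primeAt, FA.GalCoh.mem_nonunits_padicPlace, AddSubgroupClass.coe_sub,
    integralClosure.coe_smul, AlgEquiv.smul_def, map_sub, padicEmbedding_localGaloisToGlobal]
  have hb : ‖padicEmbedding p (b : Qb)‖ ≤ 1 := by
    have h := FA.Deform.zbar_mem_valuationSubring (padicPlace p) b
    rw [mem_padicPlace_iff, ← NNReal.coe_le_coe, coe_nnnorm, NNReal.coe_one] at h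
    exact h
  have h1 := FA.OrdDR.norm_apply_sub_pow_lt (σ := τ) (a := 0) (fun N z hN hz => by
    rw [pow_zero, pow_one]; exact mem_inertiaGal.1 hτ N z hN hz) b hb
  rwa [pow_zero, pow_one] at h1

variable (p) in
/-- The elements of the Galois group of `ℚ_p` fixing the given algebraic numbers. -/
def fixGal (S : Set Qb) : Subgroup G :=
  ((IntermediateField.adjoin ℚ S).fixingSubgroup).comap (localGaloisToGlobal p)

theorem isOpen_fixGal {S : Set Qb} (hS : S.Finite) : IsOpen (fixGal p S : Set G) := by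
  have : FiniteDimensional ℚ (IntermediateField.adjoin ℚ S) :=
    haveI := hS.to_subtype
    IntermediateField.finiteDimensional_adjoin fun x _ => Algebra.IsIntegral.isIntegral x
  exact (IntermediateField.fixingSubgroup_isOpen _).preimage FA.GalCoh.continuous_loc

theorem apply_of_mem_fixGal {S : Set Qb} {τ : G} (hτ : τ ∈ fixGal p S) {x : Qb} (hx : x ∈ S) :
    localGaloisToGlobal p τ x = x :=
  (IntermediateField.mem_fixingSubgroup_iff _ _).1 hτ x (IntermediateField.subset_adjoin _ _ hx)

section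

variable {C : VariableChange Qb} {V : WeierstrassCurve Qb} [V.IsElliptic]

variable (p) in
/-- The coefficients of a change of variables. -/
abbrev coeffSet (C : VariableChange Qb) : Set Qb := {(C.u : Qb), C.r, C.s, C.t}

/-- An automorphism fixing the change of variables preserves the kernel of reduction. -/
theorem e1_smul {τ : G} (hτ : τ ∈ fixGal p (coeffSet C)) (hV : C • ((ratCurve W)⁄Qb) = V)
    {Q : V.toAffine.Point} (hQ : E1 (padicPlace p).valuation V.toAffine Q) :
    E1 (padicPlace p).valuation V.toAffine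
      ((vcEquiv C hV).symm (localGaloisToGlobal p τ • vcEquiv C hV Q)) := by
  haveI : ((ratCurve W)⁄Qb).IsElliptic :=
    inferInstanceAs ((ratCurve W).map (algebraMap ℚ Qb)).IsElliptic
  set σ := localGaloisToGlobal p τ
  rcases Q with _ | ⟨x, y, h⟩
  · rw [← Affine.Point.zero_def, map_zero, show σ • (0 : Pts W) = 0 from gal_smul_zero _ σ,
      map_zero]
    exact e1_zero
  rw [vcEquiv_some]
  obtain ⟨h', he⟩ := smul_some (σ := σ) (ratCurve W)
    (Affine.equation_iff_nonsingular.mp ((equation_vc C hV x y).mpr h.1))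
  rw [he]
  rcases hR : (vcEquiv C hV).symm (Affine.Point.some _ _ h') with _ | ⟨x', y', hxy'⟩
  · exact e1_zero
  have h2 := congrArg (vcEquiv C hV) hR
  rw [AddEquiv.apply_symm_apply, vcEquiv_some] at h2
  have hx : σ (vcX C x) = vcX C x' := (Affine.Point.some.inj h2).1
  have hu : σ (C.u : Qb) = C.u := apply_of_mem_fixGal hτ (by simp)
  have hr : σ C.r = C.r := apply_of_mem_fixGal hτ (by simp)
  simp only [vcX, map_add, map_mul, map_pow, hu, hr] at hx
  have ex : σ x = x' := mul_left_cancel₀ (pow_ne_zero 2 C.u.ne_zero) (add_right_cancel hx)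
  rw [e1_some, ← not_le, ValuationSubring.valuation_le_one_iff, ← ex,
    FA.OrdDR.loc_mem_padicPlace_iff, ← ValuationSubring.valuation_le_one_iff, not_le,
    ← e1_some h]
  exact hQ

end

/-- **The frame**: in a suitable basis the `p`-power torsion in the kernel of reduction of a good
equation is the first axis; an open subgroup preserves it and inertia there fixes the quotient. -/
theorem exists_line {C : VariableChange Qb} {V : WeierstrassCurve Qb} (h : IsGoodEq p W C V)
    (hord : ∃ P : V.toAffine.Point, p • P = 0 ∧ ¬ E1 (padicPlace p).valuation V.toAffine P)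
    (B : TateBasis p W) :
    ∃ M : Matrix (Fin 2) (Fin 2) ℤ_[p], IsUnit M.det ∧ ∀ τ ∈ fixGal p (coeffSet C),
      (M⁻¹ * (B.rep (localGaloisToGlobal p τ) * M)) 1 0 = 0 ∧
      (τ ∈ inertiaGal p → (M⁻¹ * (B.rep (localGaloisToGlobal p τ) * M)) 1 1 = 1) := by
  haveI := h.isElliptic
  haveI : ((ratCurve W)⁄Qb).IsElliptic :=
    inferInstanceAs ((ratCurve W).map (algebraMap ℚ Qb)).IsElliptic
  have hpp := hp.out
  have hA := FA.GalCoh.liesOverPrime_padicPlace p
  let eV : V.toAffine.Point ≃+ Pts W := vcEquiv C h.eq.symm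
  let E : AddSubgroup (Pts W) :=
    { carrier := {P | E1 (padicPlace p).valuation V.toAffine (eV.symm P)}
      zero_mem' := by
        show E1 _ _ (eV.symm 0)
        rw [map_zero]; exact e1_zero
      add_mem' := fun {a b} ha hb => by
        show E1 _ _ (eV.symm (a + b))
        rw [map_add]; exact e1_add h.int ha hb
      neg_mem' := fun {a} ha => by
        show E1 _ _ (eV.symm (-a))
        rw [map_neg]; exact e1_neg.mpr ha }
  obtain ⟨x, hx, hxE, hx0⟩ : ∃ x : Pts W, p • x = 0 ∧ x ∈ E ∧ x ≠ 0 := by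
    obtain ⟨P, hP0, hP, hPE⟩ := h.exists_e1_torsion
    refine ⟨eV P, by rw [← map_nsmul, hP, map_zero], ?_,
      fun e => hP0 (eV.injective (e.trans (map_zero _).symm))⟩
    show E1 _ _ (eV.symm (eV P))
    rw [eV.symm_apply_apply]; exact hPE
  obtain ⟨z, hz, hzE⟩ : ∃ z : Pts W, p • z = 0 ∧ z ∉ E := by
    obtain ⟨P, hP, hPE⟩ := hord
    refine ⟨eV P, by rw [← map_nsmul, hP, map_zero], fun hc => hPE ?_⟩
    have : E1 (padicPlace p).valuation V.toAffine (eV.symm (eV P)) := hc
    rwa [eV.symm_apply_apply] at this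
  -- the points of order dividing `p`
  have hline : ∀ y : Pts W, p • y = 0 → y ∈ E → ∃ c : ℕ, y = c • x := by
    intro y hy hyE
    let T := (Submodule.torsionBy ℤ ((ratCurve W)⁄Qb).Point (p : ℤ)).toAddSubgroup
    have hT : ∀ a : Pts W, a ∈ T ↔ p • a = 0 := fun a => mem_torsion_iff W
    haveI : Finite T := finite_torsion (ratCurve W) hpp.ne_zero
    let xT : T := ⟨x, (hT x).mpr hx⟩
    let H : AddSubgroup T := E.comap T.subtype
    have hTcard : Nat.card T = p ^ 2 := natCard_torsion (ratCurve W) hpp.ne_zero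
    have hxT : addOrderOf xT = p := by
      rw [← AddSubgroup.addOrderOf_coe]
      exact addOrderOf_eq_prime hx hx0
    have hle : AddSubgroup.zmultiples xT ≤ H := AddSubgroup.zmultiples_le.mpr hxE
    obtain ⟨i, hi, hcard⟩ := (Nat.dvd_prime_pow hpp).mp
      (hTcard ▸ AddSubgroup.card_addSubgroup_dvd_card H)
    have hi1 : i ≤ 1 := by
      by_contra hgt
      have : H = ⊤ := AddSubgroup.eq_top_of_card_eq _ (by
        rw [hcard, hTcard, show i = 2 by omega])
      exact hzE (this.ge (AddSubgroup.mem_top ⟨z, (hT z).mpr hz⟩) :)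
    have heq : AddSubgroup.zmultiples xT = H := AddSubgroup.eq_of_le_of_card_ge hle (by
      rw [Nat.card_zmultiples, hxT, hcard]
      exact (Nat.pow_le_pow_right hpp.pos hi1).trans_eq (pow_one p))
    have hy' : (⟨y, (hT y).mpr hy⟩ : T) ∈ AddSubgroup.zmultiples xT := heq ▸ hyE
    rw [← IsOfFinAddOrder.mem_multiples_iff_mem_zmultiples
      (addOrderOf_pos_iff.mp (hxT ▸ hpp.pos)), AddSubmonoid.mem_multiples_iff] at hy'
    obtain ⟨c, hc⟩ := hy'
    exact ⟨c, (congrArg Subtype.val hc).symm⟩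
  -- division inside the kernel of reduction
  have hlift : ∀ (n : ℕ) (w : {w : Pts W // p ^ n • w = 0 ∧ w ∈ E}),
      ∃ y : {w : Pts W // p ^ (n + 1) • w = 0 ∧ w ∈ E}, p • y.1 = w.1 := by
    rintro n ⟨w, hw, hwE⟩
    obtain ⟨Q, hQ, hQE⟩ := OpenImageAll.exists_div hpp hA h.int h.disc (eV.symm w)
    refine ⟨⟨eV Q, ?_, ?_⟩, ?_⟩
    · rw [pow_succ, mul_nsmul', ← map_nsmul eV, hQ, eV.apply_symm_apply, hw]
    · show E1 _ _ (eV.symm (eV Q))
      rw [eV.symm_apply_apply]
      exact hQE hwE
    · show p • eV Q = w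
      rw [← map_nsmul, hQ, eV.apply_symm_apply]
  choose g hgs using hlift
  let S : ∀ k : ℕ, {w : Pts W // p ^ (k + 1) • w = 0 ∧ w ∈ E} :=
    fun k => Nat.rec ⟨x, by rw [pow_one]; exact hx, hxE⟩ (fun k w => g (k + 1) w) k
  let X : ℕ → Pts W := fun n => match n with | 0 => (0 : Pts W) | k + 1 => (S k).1
  have hXt : ∀ n, p ^ n • X n = 0 := fun n => by
    cases n with
    | zero => exact nsmul_zero _
    | succ k => exact (S k).2.1
  have hXE : ∀ n, X n ∈ E := fun n => by
    cases n with
    | zero => exact zero_mem _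
    | succ k => exact (S k).2.2
  have hXc : ∀ n, p • X (n + 1) = X n := fun n => by
    cases n with
    | zero => exact hx
    | succ k => exact hgs (k + 1) (S k)
  obtain ⟨v₀, hv₀⟩ := B.exists_vec hXt hXc
  have hxn : ∀ n, p ^ n • X (n + 1) = x := fun n => by
    rw [← hv₀ (n + 1), add_comm n 1, B.pow_compat 1 n]
    exact hv₀ 1
  have hcyc : ∀ n y, p ^ n • y = 0 → y ∈ E → ∃ k : ℕ, y = k • X n := by
    intro n
    induction n with
    | zero => exact fun y hy _ => ⟨0, by simpa using hy⟩
    | succ n ih =>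
      intro y hy hyE
      obtain ⟨k, hk⟩ := ih (p • y) (by rw [← mul_nsmul', ← pow_succ, hy])
        (E.nsmul_mem hyE _)
      obtain ⟨c, hc⟩ := hline (y - k • X (n + 1))
        (by rw [nsmul_sub, smul_comm p k, hXc, hk, sub_self])
        (sub_mem hyE (E.nsmul_mem (hXE (n + 1)) k))
      refine ⟨k + c * p ^ n, ?_⟩
      rw [add_nsmul, mul_nsmul', hxn, ← hc, add_sub_cancel]
  obtain ⟨i, hi⟩ : ∃ i, IsUnit (v₀ i) := by
    by_contra hne
    push Not at hne
    have hmem : ∀ i, PadicInt.toZModPow 1 (v₀ i) = 0 := fun i => by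
      rw [← RingHom.mem_ker, PadicInt.ker_toZModPow, pow_one, ← PadicInt.maximalIdeal_eq_span_p]
      exact hne i
    exact hx0 ((hv₀ 1).symm.trans ((B.ker 1 v₀).mpr hmem))
  obtain ⟨M, hM, hM0⟩ : ∃ M : Matrix (Fin 2) (Fin 2) ℤ_[p], IsUnit M.det ∧
      M *ᵥ Pi.single 0 1 = v₀ := by
    fin_cases i
    · refine ⟨!![v₀ 0, 0; v₀ 1, 1], by simpa [det_fin_two_of] using hi, ?_⟩
      funext j; fin_cases j <;> simp
    · refine ⟨!![v₀ 0, 1; v₀ 1, 0], by simpa [det_fin_two_of] using hi, ?_⟩
      funext j; fin_cases j <;> simp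
  refine ⟨M, hM, fun τ hτ => ?_⟩
  set R := B.rep (localGaloisToGlobal p τ)
  have hMe : M⁻¹ *ᵥ v₀ = Pi.single 0 1 := by
    rw [← hM0, mulVec_mulVec, Matrix.nonsing_inv_mul _ hM, one_mulVec]
  have hcoord : ∀ n w, B.φ n w ∈ E → PadicInt.toZModPow n ((M⁻¹ *ᵥ w) 1) = 0 := by
    intro n w hw
    obtain ⟨k, hk⟩ := hcyc n _ (B.nsmul_phi n w) hw
    rw [← hv₀, ← map_nsmul] at hk
    rw [RingHom.map_mulVec, show (PadicInt.toZModPow n) ∘ w =
      (PadicInt.toZModPow n) ∘ (k • v₀) from funext (B.phi_eq_iff.mp hk), ← RingHom.map_mulVec,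
      mulVec_smul, hMe]
    simp
  have hcol : ∀ j, M⁻¹ *ᵥ (R *ᵥ (M *ᵥ Pi.single j 1)) = (M⁻¹ * (R * M)).col j := fun j => by
    rw [mulVec_mulVec, mulVec_mulVec, mul_assoc, mulVec_single_one]
  refine ⟨PadicInt.ext_of_toZModPow.mp fun n => ?_, fun hI => PadicInt.ext_of_toZModPow.mp
    fun n => ?_⟩
  · have hmem : B.φ n (R *ᵥ v₀) ∈ E := by
      rw [← B.rep_spec, hv₀]
      have h1 := e1_smul hτ h.eq.symm (hXE n)
      rwa [show vcEquiv C h.eq.symm (eV.symm (X n)) = X n from eV.apply_symm_apply _] at h1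
    have h1 := hcoord n _ hmem
    rw [← hM0, hcol] at h1
    rw [map_zero]
    exact h1
  · set w := M *ᵥ Pi.single 1 1 with hw
    obtain ⟨Q', hQ', hE⟩ := FA.PotentialGood.exists_map_eq_e1_sub (ratCurve W) h.eq h.int h.disc
      (loc_mem_inertia hI) (apply_of_mem_fixGal hτ (by simp)) (apply_of_mem_fixGal hτ (by simp))
      (apply_of_mem_fixGal hτ (by simp)) (apply_of_mem_fixGal hτ (by simp))
      (eV.symm (B.φ n w))
    change eV Q' = localGaloisToGlobal p τ • eV (eV.symm (B.φ n w)) at hQ'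
    rw [eV.apply_symm_apply, B.rep_spec] at hQ'
    have hmem : B.φ n (R *ᵥ w - w) ∈ E := by
      show E1 _ _ (eV.symm _)
      rwa [map_sub, map_sub, ← hQ', eV.symm_apply_apply]
    have h1 := hcoord n _ hmem
    have hM1 : (M⁻¹ *ᵥ w) 1 = 1 := by
      rw [hw, mulVec_mulVec, Matrix.nonsing_inv_mul _ hM, one_mulVec, Pi.single_eq_same]
    rw [mulVec_sub, Pi.sub_apply, hM1, hw, hcol, map_sub, map_one, sub_eq_zero] at h1
    rw [map_one]
    exact h1

end FA.PotDR
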