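import Fermat.Agent.PotentialDeRham.Line
import Fermat.Agent.GoodReduction.Coinvariants
import Fermat.Agent.Sen.Cocycle

/-!
# De Rham outside potentially supersingular reduction

The line of the kernel of reduction of a good equation is stable under the whole Galois group of
`ℚ_p`, because the cyclotomic character has infinite order on inertia. At a pole of `j` a
quadratic twist has multiplicative reduction, and the representation is the twist of that one.
-/

set_option autoImplicit false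
set_option linter.unusedSectionVars false
set_option linter.style.haveILetI false

noncomputable section

open Matrix WeierstrassCurve FA.TateSen FA.BDR FA.Sen FA.PadicHodge FA.Frob FA.EC FA.Local
  FA.RT.Tate FA.PadicChar FA.CurveDR FA.OrdDR
open scoped WeierstrassCurve.Affine Classical

namespace FA.PotDR

variable {p : ℕ} [hp : Fact p.Prime] {W : WeierstrassCurve ℤ} [(ratCurve W).IsElliptic]

local notation "Cp" => ℂ_[p]
local notation "G" => PadicAlgCl p ≃ₐ[ℚ_[p]] PadicAlgCl p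
local notation "Qb" => AlgebraicClosure ℚ
local notation "GQ" => AlgebraicClosure ℚ ≃ₐ[ℚ] AlgebraicClosure ℚ
local notation "Ω" => PadicAlgCl p

/-- Inertia inside an open subgroup has nontrivial cyclotomic character. -/
theorem exists_chi_ne_one {U : Subgroup G} (hU : IsOpen (U : Set G)) :
    ∃ u ∈ U, u ∈ inertiaGal p ∧ ((chi p u : ℤ_[p]) : ℚ_[p]) ≠ 1 := by
  by_contra hc
  push Not at hc
  have h1 : Continuous (1 : G →* ℚ_[p]) := continuous_const
  refine one_ne_zero (isLocAlg_unique h1 (i := 1) (j := 0)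
    ⟨U, hU, fun σ hσ hI => by rw [MonoidHom.one_apply, zpow_one, hc σ hσ hI]⟩
    ⟨⊤, isOpen_univ, fun σ _ _ => by rw [MonoidHom.one_apply, zpow_zero]⟩)

theorem inertiaGal_conj_mem {u : G} (hu : u ∈ inertiaGal p) (σ : G) :
    σ⁻¹ * u * σ ∈ inertiaGal p := mem_inertiaGal.2 fun N z hN hz => by
  rw [AlgEquiv.mul_apply, AlgEquiv.mul_apply,
    mem_inertiaGal.1 hu N (σ z) hN (by rw [← map_pow, hz, map_one]), ← AlgEquiv.mul_apply,
    inv_mul_cancel, AlgEquiv.one_apply]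

/-- A line stable on an open subgroup, with inertia there trivial on the quotient, is stable. -/
theorem line_stable {T : G → Matrix (Fin 2) (Fin 2) ℚ_[p]} (hm : ∀ σ τ, T (σ * τ) = T σ * T τ)
    (hdet : ∀ τ, (T τ).det = ((chi p τ : ℤ_[p]) : ℚ_[p])) {U : Subgroup G}
    (hU : IsOpen (U : Set G)) (h10 : ∀ τ ∈ U, T τ 1 0 = 0)
    (h11 : ∀ τ ∈ U, τ ∈ inertiaGal p → T τ 1 1 = 1) (σ : G) : T σ 1 0 = 0 := by
  obtain ⟨N, hN, hNo, hNU⟩ :=
    FA.Sen.exists_open_normal_subset (hU.mem_nhds U.one_mem)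
  obtain ⟨u, hu, huI, hu1⟩ := exists_chi_ne_one hNo
  have hu' : σ⁻¹ * u * σ ∈ N := by simpa using hN.conj_mem u hu σ⁻¹
  have hI' := inertiaGal_conj_mem huI σ
  set u' := σ⁻¹ * u * σ
  have e : T u * T σ = T σ * T u' := by
    rw [← hm, ← hm]
    simp only [u', mul_assoc, mul_inv_cancel_left]
  have e' := congrFun (congrFun e 1) 0
  have ha : T u' 0 0 = ((chi p u : ℤ_[p]) : ℚ_[p]) := by
    have h := hdet u'
    rw [Matrix.det_fin_two, h10 _ (hNU _ hu'), h11 _ (hNU _ hu') hI', mul_one, mul_zero,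
      sub_zero] at h
    rw [h, show chi p u' = chi p u by
      rw [map_mul, map_mul, map_inv, mul_comm, mul_inv_cancel_left]]
  rw [Matrix.mul_apply, Matrix.mul_apply, Fin.sum_univ_two, Fin.sum_univ_two, h10 _ (hNU _ hu),
    h11 _ (hNU _ hu) huI, h10 _ (hNU _ hu'), ha, zero_mul, zero_add, one_mul, mul_zero,
    add_zero] at e'
  have h1 : T σ 1 0 * (((chi p u : ℤ_[p]) : ℚ_[p]) - 1) = 0 := by linear_combination -e'
  exact (mul_eq_zero.1 h1).resolve_right (sub_ne_zero.2 hu1)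

/-- **The shape at a prime of potentially ordinary reduction.** -/
theorem exists_shape_of_potOrdinary (h : PotOrdinary p W) (B : TateBasis p W) :
    ∃ (C : (Matrix (Fin 2) (Fin 2) ℚ_[p])ˣ) (η : G →* ℚ_[p]) (y : G → ℚ_[p]),
      Continuous η ∧ Continuous y ∧ IsLocAlg η 0 ∧
      ∀ τ, curveAtP B τ * (C : Matrix (Fin 2) (Fin 2) ℚ_[p]) =
        (C : Matrix (Fin 2) (Fin 2) ℚ_[p]) *
          !![((chi p τ : ℤ_[p]) : ℚ_[p]) * (η τ)⁻¹, y τ; 0, η τ] := by
  obtain ⟨-, C₁, V, hgood, hord⟩ := h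
  obtain ⟨M, hM, hline⟩ := exists_line hgood hord B
  have hU : IsOpen (fixGal p (coeffSet C₁) : Set G) := isOpen_fixGal (by simp)
  obtain ⟨C, hC⟩ : IsUnit (M.map (PadicInt.Coe.ringHom (p := p))) :=
    ((Matrix.isUnit_iff_isUnit_det _).2 hM).map (PadicInt.Coe.ringHom (p := p)).mapMatrix
  set T : G → Matrix (Fin 2) (Fin 2) ℚ_[p] := fun τ =>
    (↑C⁻¹ : Matrix (Fin 2) (Fin 2) ℚ_[p]) * curveAtP B τ * (C : Matrix (Fin 2) (Fin 2) ℚ_[p])
  have hT : ∀ τ, curveAtP B τ * (C : Matrix (Fin 2) (Fin 2) ℚ_[p]) =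
      (C : Matrix (Fin 2) (Fin 2) ℚ_[p]) * T τ := fun τ => by
    simp only [T, ← mul_assoc, Units.mul_inv, one_mul]
  have hρ := isQpRep_curveAtP B
  have hTc : Continuous T := (continuous_const.mul hρ.cont).mul continuous_const
  have hTm : ∀ σ τ, T (σ * τ) = T σ * T τ := fun σ τ => by
    simp only [T, hρ.map_mul, mul_assoc, Units.mul_inv_cancel_left]
  have hdet : ∀ τ, (T τ).det = ((chi p τ : ℤ_[p]) : ℚ_[p]) := fun τ =>
    (Matrix.det_units_conj' C _).trans (det_curveAtP B τ)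
  have hTe : ∀ τ, T τ = (M⁻¹ * (B.rep (localGaloisToGlobal p τ) * M)).map
      (PadicInt.Coe.ringHom (p := p)) := fun τ => by
    have e : M * (M⁻¹ * (B.rep (localGaloisToGlobal p τ) * M)) =
        B.rep (localGaloisToGlobal p τ) * M := by
      rw [← mul_assoc, Matrix.mul_nonsing_inv _ hM, one_mul]
    have e' := congrArg (fun X : Matrix (Fin 2) (Fin 2) ℤ_[p] =>
      X.map (PadicInt.Coe.ringHom (p := p))) e
    simp only [Matrix.map_mul, ← hC] at e'
    show (↑C⁻¹ : Matrix (Fin 2) (Fin 2) ℚ_[p]) * _ * _ = _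
    rw [curveAtP, mul_assoc, ← e', Units.inv_mul_cancel_left, Matrix.map_mul, Matrix.map_mul, hC]
  have h11 : ∀ τ ∈ fixGal p (coeffSet C₁), τ ∈ inertiaGal p → T τ 1 1 = 1 := fun τ hτ hI => by
    rw [hTe, Matrix.map_apply, (hline τ hτ).2 hI, map_one]
  have h10 : ∀ σ, T σ 1 0 = 0 := line_stable hTm hdet hU
    (fun τ hτ => by rw [hTe, Matrix.map_apply, (hline τ hτ).1, map_zero]) h11
  let η : G →* ℚ_[p] :=
    { toFun := fun τ => T τ 1 1
      map_one' := by simp only [T, hρ.map_one, mul_one, Units.inv_mul, Matrix.one_apply_eq]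
      map_mul' := fun σ τ => by
        rw [hTm, Matrix.mul_apply, Fin.sum_univ_two, h10, zero_mul, zero_add] }
  have hη : Continuous η := hTc.matrix_elem 1 1
  refine ⟨C, η, fun τ => T τ 0 1, hη, hTc.matrix_elem 0 1,
    ⟨_, hU, fun σ hσ hI => by rw [zpow_zero]; exact h11 σ hσ hI⟩, fun τ => ?_⟩
  rw [hT τ]
  congr 1
  have hd := hdet τ
  rw [Matrix.det_fin_two, h10, mul_zero, sub_zero] at hd
  have h00 : T τ 0 0 = ((chi p τ : ℤ_[p]) : ℚ_[p]) * (η τ)⁻¹ := by
    rw [← hd]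
    exact (mul_inv_cancel_right₀ (char_ne_zero hη τ : T τ 1 1 ≠ 0) _).symm
  ext a b
  fin_cases a <;> fin_cases b <;> simp [η, h00, h10]

/-- **Potentially ordinary reduction gives a de Rham representation of weights `1` and `0`.** -/
theorem isDeRham_of_potOrdinary (h : PotOrdinary p W) (B : TateBasis p W) :
    IsDeRham (curveAtP B) ∧ ∃ P : (Matrix (Fin 2) (Fin 2) Cp)ˣ, ∀ τ,
      FA.Sen.conj (cpRep (curveAtP B)) P τ =
        Matrix.diagonal fun i => twist p (![1, 0] i) τ := by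
  obtain ⟨C, η, y, hη, -, h0, hC⟩ := exists_shape_of_potOrdinary h B
  exact isDeRham_of_shape (isQpRep_curveAtP B) (continuous_invChar hη) hη
    (isLocAlg_invChar h0) h0 hC

/-! ### Poles of `j` -/

/-- The matrix of a twisting isomorphism intertwines the representations up to the sign. -/
theorem exists_twist_matrix {W' : WeierstrassCurve ℤ} [(ratCurve W').IsElliptic]
    (B : TateBasis p W) (B' : TateBasis p W') (e : Pts W' ≃+ Pts W) {s : Qb}
    (hs : ∀ σ : GQ, σ s = s ∨ σ s = -s)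
    (he : ∀ (σ : GQ) Q, (σ s = s → σ • e Q = e (σ • Q)) ∧ (σ s = -s → σ • e Q = -e (σ • Q))) :
    ∃ M : (Matrix (Fin 2) (Fin 2) ℚ_[p])ˣ, ∀ τ, ∃ ε : ℚ_[p], ε ^ 2 = 1 ∧
      curveAtP B τ * (M : Matrix (Fin 2) (Fin 2) ℚ_[p]) =
        (M : Matrix (Fin 2) (Fin 2) ℚ_[p]) * (ε • curveAtP B' τ) := by
  obtain ⟨P, hP⟩ := FA.GoodReduction.exists_hom_matrix B' B e.toAddMonoidHom
  obtain ⟨Q, hQ⟩ := FA.GoodReduction.exists_hom_matrix B B' e.symm.toAddMonoidHom
  have hP' : ∀ n v, B.φ n (P *ᵥ v) = e (B'.φ n v) := hP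
  have hQ' : ∀ n v, B'.φ n (Q *ᵥ v) = e.symm (B.φ n v) := hQ
  have hQP : Q * P = 1 := B'.ext_phi fun n v => by
    rw [← mulVec_mulVec, hQ', hP', e.symm_apply_apply, one_mulVec]
  have hPQ : P * Q = 1 := B.ext_phi fun n v => by
    rw [← mulVec_mulVec, hP', hQ', e.apply_symm_apply, one_mulVec]
  set f := PadicInt.Coe.ringHom (p := p)
  refine ⟨⟨P.map f, Q.map f,
    by rw [← Matrix.map_mul, hPQ, Matrix.map_one _ (map_zero _) (map_one _)],
    by rw [← Matrix.map_mul, hQP, Matrix.map_one _ (map_zero _) (map_one _)]⟩, fun τ => ?_⟩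
  set σ := localGaloisToGlobal p τ
  have hm : ∀ X : Matrix (Fin 2) (Fin 2) ℤ_[p],
      B.rep σ * P = P * X → curveAtP B τ * P.map f = P.map f * X.map f := fun X h => by
    rw [curveAtP, ← Matrix.map_mul, h, Matrix.map_mul]
  rcases hs σ with h | h
  · refine ⟨1, one_pow 2, ?_⟩
    rw [one_smul]
    refine hm _ (B.ext_phi fun n v => ?_)
    rw [← mulVec_mulVec, ← mulVec_mulVec, hP', ← B.rep_spec, hP', (he σ _).1 h, B'.rep_spec]
  · refine ⟨-1, by ring, ?_⟩
    have h1 := hm (-B'.rep σ) (B.ext_phi fun n v => by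
      rw [← mulVec_mulVec, ← mulVec_mulVec, hP', ← B.rep_spec, hP', (he σ _).2 h, B'.rep_spec,
        neg_mulVec, map_neg, map_neg])
    rw [Matrix.map_neg _ (map_neg f)] at h1
    rwa [neg_one_smul]

/-- **The shape at a pole of `j`**: an extension of a quadratic character by its product with the
cyclotomic one. -/
theorem exists_shape_of_pole (hp2 : p ≠ 2) (hj : padicValRat p (ratCurve W).j < 0)
    (B : TateBasis p W) :
    ∃ (C : (Matrix (Fin 2) (Fin 2) ℚ_[p])ˣ) (η : G →* ℚ_[p]) (y : G → ℚ_[p]),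
      Continuous η ∧ Continuous y ∧ (∀ τ, η τ ^ 2 = 1) ∧
      ∀ τ, curveAtP B τ * (C : Matrix (Fin 2) (Fin 2) ℚ_[p]) =
        (C : Matrix (Fin 2) (Fin 2) ℚ_[p]) *
          !![((chi p τ : ℤ_[p]) : ℚ_[p]) * η τ, y τ; 0, η τ] := by
  obtain ⟨d, hd, W', hW', hdvd, hc⟩ :=
    FA.OggShafarevich.exists_multiplicative_twist (ratCurve W) hj
  haveI := FA.Root.quadTwist_isElliptic (ratCurve W) hd
  have hΔ := FA.Frob.Δ_ne_zero_of_model hW'
  haveI := FA.Frob.ratCurve_isElliptic_of_Δ hΔ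
  obtain ⟨e₁, he₁⟩ := FA.Root.exists_equiv_of_model hW'
  obtain ⟨s, t, hs, ht⟩ := FA.Root.exists_twist_equiv_sqrt (ratCurve W) hd
  have hsign : ∀ σ : GQ, σ s = s ∨ σ s = -s := fun σ =>
    sq_eq_sq_iff_eq_or_eq_neg.1 (by rw [← map_pow, hs, AlgEquiv.commutes])
  obtain ⟨B'⟩ := exists_tateBasis (p := p) W'
  obtain ⟨M, hM⟩ := exists_twist_matrix B B' (e₁.trans t) hsign fun σ Q =>
    ⟨fun h => ((ht σ (e₁ Q)).1 h).trans (congrArg t (he₁ σ Q).symm),
      fun h => ((ht σ (e₁ Q)).2 h).trans (congrArg (fun R => -t R) (he₁ σ Q).symm)⟩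
  obtain ⟨C', η', y', -, -, h2, hC'⟩ :=
    CurveDR.exists_shape B' hp2 (multAt_padicPlace hΔ hdvd hc)
  set C := M * C' with hCdef
  set T : G → Matrix (Fin 2) (Fin 2) ℚ_[p] := fun τ =>
    (↑C⁻¹ : Matrix (Fin 2) (Fin 2) ℚ_[p]) * curveAtP B τ * (C : Matrix (Fin 2) (Fin 2) ℚ_[p])
  have hT : ∀ τ, curveAtP B τ * (C : Matrix (Fin 2) (Fin 2) ℚ_[p]) =
      (C : Matrix (Fin 2) (Fin 2) ℚ_[p]) * T τ := fun τ => by
    simp only [T, ← mul_assoc, Units.mul_inv, one_mul]
  have hρ := isQpRep_curveAtP B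
  have hTc : Continuous T := (continuous_const.mul hρ.cont).mul continuous_const
  have hTm : ∀ σ τ, T (σ * τ) = T σ * T τ := fun σ τ => by
    simp only [T, hρ.map_mul, mul_assoc, Units.mul_inv_cancel_left]
  have hshape : ∀ τ, T τ 1 0 = 0 ∧ T τ 1 1 ^ 2 = 1 ∧
      T τ 0 0 = ((chi p τ : ℤ_[p]) : ℚ_[p]) * T τ 1 1 := fun τ => by
    obtain ⟨ε, hε, he⟩ := hM τ
    have h1 : T τ = ε • !![((chi p τ : ℤ_[p]) : ℚ_[p]) * η' τ, y' τ; 0, η' τ] := by
      simp only [T, hCdef, _root_.mul_inv_rev, Units.val_mul, mul_assoc]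
      rw [← mul_assoc (curveAtP B τ), he, mul_assoc (M : Matrix (Fin 2) (Fin 2) ℚ_[p]),
        Units.inv_mul_cancel_left, smul_mul_assoc, hC', mul_smul_comm, Units.inv_mul_cancel_left]
    rw [h1]
    refine ⟨by simp, by simp [mul_pow, hε, h2 τ], ?_⟩
    simp
    ring
  let η : G →* ℚ_[p] :=
    { toFun := fun τ => T τ 1 1
      map_one' := by simp only [T, hρ.map_one, mul_one, Units.inv_mul, Matrix.one_apply_eq]
      map_mul' := fun σ τ => by
        rw [hTm, Matrix.mul_apply, Fin.sum_univ_two, (hshape σ).1, zero_mul, zero_add] }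
  refine ⟨C, η, fun τ => T τ 0 1, hTc.matrix_elem 1 1, hTc.matrix_elem 0 1,
    fun τ => (hshape τ).2.1, fun τ => ?_⟩
  rw [hT τ]
  congr 1
  ext a b
  fin_cases a <;> fin_cases b <;> simp [η, (hshape τ).1, (hshape τ).2.2]

/-- **A pole of `j` at an odd `p` gives a de Rham representation of weights `1` and `0`.** -/
theorem isDeRham_of_pole (hp2 : p ≠ 2) (hj : padicValRat p (ratCurve W).j < 0)
    (B : TateBasis p W) :
    IsDeRham (curveAtP B) ∧ ∃ P : (Matrix (Fin 2) (Fin 2) Cp)ˣ, ∀ τ,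
      FA.Sen.conj (cpRep (curveAtP B)) P τ =
        Matrix.diagonal fun i => twist p (![1, 0] i) τ := by
  obtain ⟨C, η, y, hη, -, h2, hC⟩ := exists_shape_of_pole hp2 hj B
  have h0 : IsLocAlg η 0 :=
    ⟨η.ker, isOpen_ker_of_finite hη (finite_roots two_pos) h2, fun σ hσ _ => by
      rw [MonoidHom.mem_ker.1 hσ, zpow_zero]⟩
  exact isDeRham_of_shape (isQpRep_curveAtP B) hη hη h0 h0 hC

/-- **De Rham outside potentially supersingular reduction.** -/
theorem isDeRham_of_not_supersingular (hp2 : p ≠ 2) (h : ¬ PotSupersingular p W)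
    (B : TateBasis p W) :
    IsDeRham (curveAtP B) ∧ ∃ P : (Matrix (Fin 2) (Fin 2) Cp)ˣ, ∀ τ,
      FA.Sen.conj (cpRep (curveAtP B)) P τ =
        Matrix.diagonal fun i => twist p (![1, 0] i) τ := by
  rcases lt_or_ge (padicValRat p (ratCurve W).j) 0 with hj | hj
  · exact isDeRham_of_pole hp2 hj B
  · exact isDeRham_of_potOrdinary ((potOrdinary_or_supersingular hj).2 h) B

end FA.PotDR
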