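import Fermat.Agent.PotentialDeRham.GoodModel

/-!
# Comparison with good reduction over `ℤ`

If `p ∤ Δ` the equation itself is good: it is potentially ordinary when `p ∤ a_p` and potentially
supersingular when `p ≥ 5` and `p ∣ a_p`.
-/

set_option autoImplicit false
set_option linter.unusedSectionVars false
set_option linter.style.haveILetI false

noncomputable section

open WeierstrassCurve FA.Frob FA.EC FA.Local FA.RT.Tate FA.OrdDR
open scoped WeierstrassCurve.Affine Classical

namespace FA.PotDR

local notation "Qb" => AlgebraicClosure ℚ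

variable {p : ℕ} [hp : Fact p.Prime] {W : WeierstrassCurve ℤ} [(ratCurve W).IsElliptic]

theorem isGoodEq_self (hg : W.IsGoodPrimeFor p) : IsGoodEq p W 1 ((ratCurve W)⁄Qb) where
  eq := (one_smul _ _).symm
  int := intCoeff_ratCurve W _
  disc := valuation_Δ_ratCurve W hp.out (FA.GalCoh.liesOverPrime_padicPlace p) hg

theorem j_integral_of_good (hg : W.IsGoodPrimeFor p) : 0 ≤ padicValRat p (ratCurve W).j := by
  by_contra hj
  exact hg (FA.OggShafarevich.dvd_Δ_of_pole (E := ratCurve W) (W := W) ⟨1, one_smul _ _⟩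
    (not_le.1 hj))

/-- Good ordinary reduction is potentially ordinary. -/
theorem potOrdinary_of_ordinary (hg : W.IsGoodPrimeFor p) (ha : ¬ (p : ℤ) ∣ W.apOfModel p) :
    PotOrdinary p W := by
  obtain ⟨T, hT, hT0⟩ := exists_redPt_ne_zero hg ha
  exact ⟨j_integral_of_good hg, 1, _, isGoodEq_self hg, T, hT,
    fun h => hT0 ((redPt_eq_zero_iff hg).2 h)⟩

/-- Good supersingular reduction is potentially supersingular. -/
theorem potSupersingular_of_supersingular (h5 : 5 ≤ p) (hg : W.IsGoodPrimeFor p)
    (ha : (p : ℤ) ∣ W.apOfModel p) : PotSupersingular p W := by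
  refine ⟨j_integral_of_good hg, 1, _, isGoodEq_self hg,
    (isGoodEq_self hg).e1_of_pow fun P hP => (redPt_eq_zero_iff hg).1 ?_⟩
  have := isElliptic_reductionMod hg
  have key : ∀ Q : (redP p W).toAffine.Point, p • Q = 0 → Q = 0 := by
    rw [redP_eq_map]
    exact fun Q hQ => FA.DeuringCriterion.eq_zero_of_dvd (W.reductionMod p) (castP p) h5 ha hQ
  exact key _ (by rw [← map_nsmul, hP, map_zero])

end FA.PotDR
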