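import Fermat.Agent.OrdinaryDeRham.DeRham
import Fermat.Agent.Root.SummaryPotentialGoodReduction
import Fermat.Agent.GoodReductionNF.LocalTrace

/-!
# Good models over `ℚ̄` at the place at `p`

Any two equations good at the place have the same kernel of reduction, so "some point of order `p`
has nonzero reduction" does not depend on the good equation. When it fails all `p`-power torsion
lies in the kernel of reduction.
-/

set_option autoImplicit false
set_option linter.unusedSectionVars false
set_option linter.style.haveILetI false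

noncomputable section

open Matrix Polynomial WeierstrassCurve FA.Frob FA.EC FA.Local FA.RT.Tate
open scoped WeierstrassCurve.Affine Classical

namespace FA.PotDR

local notation "Qb" => AlgebraicClosure ℚ

variable {p : ℕ} [hp : Fact p.Prime] {W : WeierstrassCurve ℤ} [(ratCurve W).IsElliptic]

/-- An equation over `ℚ̄` of the curve with good reduction at the place at `p`. -/
structure IsGoodEq (p : ℕ) [Fact p.Prime] (W : WeierstrassCurve ℤ)
    (C : VariableChange (AlgebraicClosure ℚ)) (V : WeierstrassCurve (AlgebraicClosure ℚ)) :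
    Prop where
  eq : V = C • ((ratCurve W)⁄Qb)
  int : IntCoeff (padicPlace p).valuation V.toAffine
  disc : (padicPlace p).valuation V.Δ = 1

theorem IsGoodEq.isElliptic {C : VariableChange Qb} {V : WeierstrassCurve Qb}
    (h : IsGoodEq p W C V) : V.IsElliptic :=
  ⟨isUnit_iff_ne_zero.mpr fun h0 => by
    have := h.disc
    rw [h0, map_zero] at this
    exact zero_ne_one this⟩

variable (p W) in
/-- Potentially good ordinary reduction: `j` is integral and on some good equation a point of
order `p` lies outside the kernel of reduction. -/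
def PotOrdinary : Prop :=
  0 ≤ padicValRat p (ratCurve W).j ∧
    ∃ (C : VariableChange Qb) (V : WeierstrassCurve Qb), IsGoodEq p W C V ∧
      ∃ P : V.toAffine.Point, p • P = 0 ∧ ¬ E1 (padicPlace p).valuation V.toAffine P

variable (p W) in
/-- Potentially supersingular reduction: `j` is integral and on some good equation all `p`-power
torsion lies in the kernel of reduction. -/
def PotSupersingular : Prop :=
  0 ≤ padicValRat p (ratCurve W).j ∧
    ∃ (C : VariableChange Qb) (V : WeierstrassCurve Qb), IsGoodEq p W C V ∧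
      ∀ (n : ℕ) (P : V.toAffine.Point), p ^ n • P = 0 → E1 (padicPlace p).valuation V.toAffine P

/-- A good equation exists when `j` is integral at `p`. -/
theorem exists_isGoodEq (hj : 0 ≤ padicValRat p (ratCurve W).j) :
    ∃ C V, IsGoodEq p W C V := by
  obtain ⟨C, V, hV, hI, hΔ⟩ := FA.PotentialGood.exists_goodModel (ratCurve W) hp.out
    (FA.GalCoh.liesOverPrime_padicPlace p) hj
  exact ⟨C, V, hV, hI, hΔ⟩

/-- **Two good equations have the same kernel of reduction.** -/
theorem IsGoodEq.exists_equiv {C C' : VariableChange Qb} {V V' : WeierstrassCurve Qb}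
    (h : IsGoodEq p W C V) (h' : IsGoodEq p W C' V') :
    ∃ e : V'.toAffine.Point ≃+ V.toAffine.Point, ∀ P,
      E1 (padicPlace p).valuation V.toAffine (e P) ↔ E1 (padicPlace p).valuation V'.toAffine P := by
  haveI := h.isElliptic
  haveI := h'.isElliptic
  have hD : (C' * C⁻¹) • V = V' := by rw [h.eq, ← mul_smul, inv_mul_cancel_right, ← h'.eq]
  obtain ⟨hu, hr, -, -⟩ := FA.GoodNF.vc_integral h.int (C := C' * C⁻¹) (by rw [hD]; exact h'.int)
    h.disc (by rw [hD]; exact h'.disc)
  refine ⟨vcEquiv (C' * C⁻¹) hD, fun P => ?_⟩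
  rcases P with _ | ⟨x, y, hP⟩
  · exact ⟨fun _ => e1_zero, fun _ => by
      rw [← Affine.Point.zero_def, map_zero]; exact e1_zero⟩
  rw [vcEquiv_some, e1_some, e1_some, vcX]
  set v := (padicPlace p).valuation
  refine ⟨fun hlt => ?_, fun hlt => ?_⟩
  · by_contra hle
    refine not_lt.2 (v.map_add_le ?_ hr) hlt
    rw [map_mul, map_pow, hu, one_pow, one_mul]
    exact not_lt.1 hle
  · have hb : v (((C' * C⁻¹).u : Qb) ^ 2 * x) = v x := by
      rw [map_mul, map_pow, hu, one_pow, one_mul]
    rw [v.map_add_eq_of_lt_left (by rw [hb]; exact hr.trans_lt hlt), hb]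
    exact hlt

/-- If the points of order `p` reduce to zero, so do those of `p`-power order. -/
theorem IsGoodEq.e1_of_pow {C : VariableChange Qb} {V : WeierstrassCurve Qb}
    (h : IsGoodEq p W C V)
    (hall : ∀ P : V.toAffine.Point, p • P = 0 → E1 (padicPlace p).valuation V.toAffine P) :
    ∀ (n : ℕ) (P : V.toAffine.Point), p ^ n • P = 0 →
      E1 (padicPlace p).valuation V.toAffine P := by
  haveI := h.isElliptic
  have hA := FA.GalCoh.liesOverPrime_padicPlace p
  intro n P hP
  refine OpenImageAll.e1_of_pow_nsmul_eq_zero hp.out hA h.int h.disc ?_ hP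
  by_contra hdeg
  obtain ⟨T, hT, hTE⟩ :=
    OpenImageAll.exists_torsion_not_e1_of_root hp.out hA (hI := h.int) h.disc hdeg 0
  rw [zero_add, pow_one] at hT
  rw [pow_zero, one_nsmul] at hTE
  exact hTE (hall T hT)

/-- **Exactly one of the two holds when `j` is integral.** -/
theorem potOrdinary_or_supersingular (hj : 0 ≤ padicValRat p (ratCurve W).j) :
    PotOrdinary p W ↔ ¬ PotSupersingular p W := by
  refine ⟨fun ⟨_, C, V, h, P, hP, hPE⟩ ⟨_, C', V', h', hall⟩ => ?_, fun hs => ?_⟩
  · obtain ⟨e, he⟩ := h.exists_equiv h'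
    have h1 := (he (e.symm P)).2 (hall 1 _ (by rw [pow_one, ← map_nsmul, hP, map_zero]))
    rw [e.apply_symm_apply] at h1
    exact hPE h1
  · obtain ⟨C, V, h⟩ := exists_isGoodEq (p := p) (W := W) hj
    refine ⟨hj, C, V, h, ?_⟩
    by_contra hne
    push Not at hne
    exact hs ⟨hj, C, V, h, h.e1_of_pow hne⟩

/-- Some point of order `p` lies in the kernel of reduction. -/
theorem IsGoodEq.exists_e1_torsion {C : VariableChange Qb} {V : WeierstrassCurve Qb}
    (h : IsGoodEq p W C V) :
    ∃ P : V.toAffine.Point, P ≠ 0 ∧ p • P = 0 ∧ E1 (padicPlace p).valuation V.toAffine P := by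
  haveI := h.isElliptic
  have hA := FA.GalCoh.liesOverPrime_padicPlace p
  have hp0 : ((p : ℤ) : Qb) ≠ 0 := by
    rw [Int.cast_natCast]; exact Nat.cast_ne_zero.mpr hp.out.ne_zero
  set f := V.ΨSq (p : ℤ)
  set c : Qb := f.leadingCoeff
  have hc : c = ((p : ℤ) : Qb) ^ 2 := V.leadingCoeff_ΨSq hp0
  have hc0 : c ≠ 0 := hc ▸ pow_ne_zero 2 hp0
  obtain ⟨k, hk⟩ : ∃ k, ((OpenImageAll.reduced h.int).ΨSq (p : ℤ)).coeff k ≠ 0 := by
    by_contra hcon
    push Not at hcon
    exact OpenImageAll.reduced_ΨSq_ne_zero hp.out hA h.int h.disc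
      (Polynomial.ext (by simpa using hcon))
  have h1 : (padicPlace p).valuation (f.coeff k) = 1 :=
    eq_one_of_not_lt (OpenImageAll.coeff_ΨSq_le h.int k) fun hlt =>
      hk ((OpenImageAll.coeff_ΨSq_lt_iff h.int k).mp hlt)
  have hlt : (padicPlace p).valuation c < 1 := by
    rw [hc, map_pow, Int.cast_natCast]
    exact pow_lt_one₀ zero_le ((padicPlace p).mem_nonunits_iff.mp hA) two_ne_zero
  have hmon : (Polynomial.C c⁻¹ * f).Monic :=
    monic_C_mul_of_mul_leadingCoeff_eq_one (inv_mul_cancel₀ hc0)
  obtain ⟨r, hr, hr1⟩ := OpenImageAll.exists_large_root (A := padicPlace p) hmon (k := k) (by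
    rw [coeff_C_mul, map_mul, h1, mul_one, map_inv₀]
    exact (one_lt_inv₀ ((padicPlace p).valuation.pos_iff.mpr hc0)).mpr hlt)
  rw [eval_mul, eval_C, mul_eq_zero, or_iff_right (inv_ne_zero hc0)] at hr
  obtain ⟨y, hy⟩ := FA.EC.exists_nonsingular V r
  exact ⟨.some r y hy, Affine.Point.some_ne_zero _, (FA.EC.nsmul_eq_zero_iff hy p).mpr hr,
    (e1_some hy).mpr hr1⟩

end FA.PotDR
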